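/-
S55 / F-abs / RT-B : the counit (trace) `ε : CoInd_U Res_U N → N`, `f ↦ ∑_{γ ∈ U\Γ} γ⁻¹ f(γ)`.
-/
import Fermat.Agent.S55.F.Basic

set_option autoImplicit false

namespace Fermat.Agent.S55.F

open Representation Module

noncomputable section

variable {k : Type} [Field k] {Γ : Type} [Group Γ]
variable {N : Type} [AddCommGroup N] [Module k N]

attribute [local instance] Subgroup.fintypeQuotientOfFiniteIndex

/-! ### The summand `γ ↦ γ f(γ⁻¹)` on left cosets `Γ ⧸ U` -/

lemma coindRes_mem (U : Subgroup Γ) (ρ : Representation k Γ N)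
    (x : coindV U.subtype (res U.subtype ρ)) (u : Γ) (hu : u ∈ U) (γ : Γ) :
    x.1 (u * γ) = ρ u (x.1 γ) := x.2 ⟨u, hu⟩ γ

lemma rep_inv_apply_self (ρ : Representation k Γ N) (g : Γ) (n : N) : ρ g⁻¹ (ρ g n) = n := by
  rw [← Module.End.mul_apply, ← map_mul, inv_mul_cancel, map_one, Module.End.one_apply]

lemma rep_apply_inv_self (ρ : Representation k Γ N) (g : Γ) (n : N) : ρ g (ρ g⁻¹ n) = n := by
  rw [← Module.End.mul_apply, ← map_mul, mul_inv_cancel, map_one, Module.End.one_apply]

/-- the function `γU ↦ γ f(γ⁻¹)` on `Γ ⧸ U` -/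
def trSummand (U : Subgroup Γ) (ρ : Representation k Γ N)
    (x : coindV U.subtype (res U.subtype ρ)) : Γ ⧸ U → N :=
  Quotient.lift (fun γ : Γ => ρ γ (x.1 γ⁻¹)) (by
    intro a b hab
    have h : a⁻¹ * b ∈ U := QuotientGroup.leftRel_apply.mp hab
    have h' : b⁻¹ * a ∈ U := by simpa using U.inv_mem h
    change ρ a (x.1 a⁻¹) = ρ b (x.1 b⁻¹)
    have e : b⁻¹ = (b⁻¹ * a) * a⁻¹ := by group
    rw [e, coindRes_mem U ρ x _ h', ← Module.End.mul_apply, ← map_mul]
    congr 2
    group)

@[simp] lemma trSummand_mk (U : Subgroup Γ) (ρ : Representation k Γ N)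
    (x : coindV U.subtype (res U.subtype ρ)) (γ : Γ) :
    trSummand U ρ x (γ : Γ ⧸ U) = ρ γ (x.1 γ⁻¹) := rfl

/-- the trace map `f ↦ ∑_{γ ∈ U\Γ} γ⁻¹ f(γ)` (sum over any set of representatives of `U\Γ`) -/
def counit (U : Subgroup Γ) [U.FiniteIndex] (ρ : Representation k Γ N) :
    (coindRes U ρ).IntertwiningMap ρ where
  toFun x := ∑ q : Γ ⧸ U, trSummand U ρ x q
  map_add' a b := by
    rw [← Finset.sum_add_distrib]
    refine Finset.sum_congr rfl fun q _ => ?_
    induction q using QuotientGroup.induction_on with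
    | H γ => simp
  map_smul' c a := by
    rw [RingHom.id_apply, Finset.smul_sum]
    refine Finset.sum_congr rfl fun q _ => ?_
    induction q using QuotientGroup.induction_on with
    | H γ => simp
  isIntertwining' g := by
    ext x
    change ∑ q : Γ ⧸ U, trSummand U ρ (coindRes U ρ g x) q = ρ g (∑ q : Γ ⧸ U, trSummand U ρ x q)
    rw [map_sum, ← Equiv.sum_comp (MulAction.toPerm (g : Γ) : Equiv.Perm (Γ ⧸ U))]
    refine Finset.sum_congr rfl fun q _ => ?_
    induction q using QuotientGroup.induction_on with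
    | H γ =>
      change ρ (g * γ) (x.1 ((g * γ)⁻¹ * g)) = ρ g (ρ γ (x.1 γ⁻¹))
      rw [← Module.End.mul_apply, ← map_mul]
      congr 2
      group

lemma counit_apply (U : Subgroup Γ) [U.FiniteIndex] (ρ : Representation k Γ N)
    (x : coindV U.subtype (res U.subtype ρ)) :
    counit U ρ x = ∑ q : Γ ⧸ U, trSummand U ρ x q := rfl

theorem counit_surjective (U : Subgroup Γ) [U.FiniteIndex] (ρ : Representation k Γ N) :
    Function.Surjective (counit U ρ) := by
  classical
  intro n
  refine ⟨⟨fun γ => if γ ∈ U then ρ γ n else 0, ?_⟩, ?_⟩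
  · intro u γ
    have hiff : (U.subtype u * γ ∈ U) ↔ γ ∈ U := U.mul_mem_cancel_left u.2
    by_cases hγ : γ ∈ U
    · simp only [hiff, hγ, if_true, map_mul]
      rfl
    · simp only [hiff, hγ, if_false, map_zero]
  · rw [counit_apply, Finset.sum_eq_single ((1 : Γ) : Γ ⧸ U)]
    · simp [U.one_mem]
    · intro q _ hq
      induction q using QuotientGroup.induction_on with
      | H γ =>
        have hγ : γ⁻¹ ∉ U := by
          intro h
          apply hq
          rw [QuotientGroup.eq]
          simpa using h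
        simp [hγ]
    · intro h
      exact absurd (Finset.mem_univ _) h

theorem counit_unit (U : Subgroup Γ) [U.FiniteIndex] (ρ : Representation k Γ N) (n : N) :
    counit U ρ (unit U ρ n) = (U.index : k) • n := by
  rw [counit_apply]
  have : ∀ q : Γ ⧸ U, trSummand U ρ (unit U ρ n) q = n := by
    intro q
    induction q using QuotientGroup.induction_on with
    | H γ => rw [trSummand_mk, unit_apply_coe, rep_apply_inv_self]
  rw [Finset.sum_congr rfl fun q _ => this q, Finset.sum_const, Finset.card_univ,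
    Subgroup.index_eq_card, Nat.card_eq_fintype_card, Nat.cast_smul_eq_nsmul]

/-- naturality of the counit -/
theorem counit_naturality (U : Subgroup Γ) [U.FiniteIndex] {N' : Type} [AddCommGroup N']
    [Module k N'] {ρ : Representation k Γ N} {ρ' : Representation k Γ N'}
    (f : ρ.IntertwiningMap ρ') (x : coindV U.subtype (res U.subtype ρ)) :
    counit U ρ' (coindMap U.subtype (resMap U.subtype f) x) = f (counit U ρ x) := by
  rw [counit_apply, counit_apply, map_sum]
  refine Finset.sum_congr rfl fun q _ => ?_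
  induction q using QuotientGroup.induction_on with
  | H γ =>
    rw [trSummand_mk, trSummand_mk, coindMap_coe_apply_apply, resMap_apply, f.isIntertwining]

/-- characterisation of the counit: for ANY linear functional-like test, it is the sum over a
transversal.  `T` is a finite set of representatives of `U\Γ`. -/
theorem counit_eq_sum (U : Subgroup Γ) [U.FiniteIndex] (ρ : Representation k Γ N)
    (T : Finset Γ) (hT : ∀ γ : Γ, ∃! t, t ∈ T ∧ γ * t⁻¹ ∈ U)
    (x : coindV U.subtype (res U.subtype ρ)) :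
    counit U ρ x = ∑ t ∈ T, ρ t⁻¹ (x.1 t) := by
  rw [counit_apply]
  symm
  refine Finset.sum_bij (fun t _ => ((t⁻¹ : Γ) : Γ ⧸ U)) (fun _ _ => Finset.mem_univ _) ?_ ?_ ?_
  · intro a ha b hb hab
    have h : a * b⁻¹ ∈ U := by simpa using QuotientGroup.eq.mp hab
    obtain ⟨t, _, ht⟩ := hT a
    rw [ht a ⟨ha, by simp [U.one_mem]⟩, ht b ⟨hb, h⟩]
  · intro q _
    induction q using QuotientGroup.induction_on with
    | H γ =>
      obtain ⟨t, ⟨htT, htU⟩, _⟩ := hT γ⁻¹
      refine ⟨t, htT, ?_⟩
      rw [QuotientGroup.eq]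
      simpa using U.inv_mem htU
  · intro t _
    rw [trSummand_mk, inv_inv]

end

end Fermat.Agent.S55.F
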