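/-
S55 / F-abs / RT-C : the twisted dual `N' = Hom(N, μ)` (`dt ω ρ`), its exactness, its invariants,
and `(CoInd_U Res N)' ≅ CoInd_U Res N'`.
-/
import Fermat.Agent.S55.F.RT.Trace

set_option autoImplicit false

namespace Fermat.Agent.S55.F

open Representation Module

noncomputable section

variable {k : Type} [Field k] {Γ : Type} [Group Γ] (ω : Γ →* kˣ)
variable {N N' : Type} [AddCommGroup N] [Module k N] [AddCommGroup N'] [Module k N']

theorem res_mu {D : Type} [Group D] (r : D →* Γ) : res r (mu ω) = mu (ω.comp r) := rfl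

theorem dt_apply_apply (ρ : Representation k Γ N) (g : Γ) (φ : Module.Dual k N) (n : N) :
    dt ω ρ g φ n = (ω g : k) * φ (ρ g⁻¹ n) := rfl

theorem mu_apply_apply (g : Γ) (c : k) : mu ω g c = (ω g : k) * c := rfl

theorem res_dt {D : Type} [Group D] (r : D →* Γ) (ρ : Representation k Γ N) :
    res r (dt ω ρ) = dt (ω.comp r) (res r ρ) := by
  ext d φ n
  show dt ω ρ (r d) φ n = dt (ω.comp r) (res r ρ) d φ n
  rw [dt_apply_apply, dt_apply_apply]
  simp

/-- transpose of an intertwining map -/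
def dtMap {ρ : Representation k Γ N} {σ : Representation k Γ N'} (f : ρ.IntertwiningMap σ) :
    (dt ω σ).IntertwiningMap (dt ω ρ) where
  toLinearMap := f.toLinearMap.dualMap
  isIntertwining' g := by
    ext φ n
    show dt ω σ g φ (f n) = dt ω ρ g (f.toLinearMap.dualMap φ) n
    rw [dt_apply_apply, dt_apply_apply]
    show _ = (ω g : k) * φ (f (ρ g⁻¹ n))
    rw [f.isIntertwining]

@[simp] theorem dtMap_apply {ρ : Representation k Γ N} {σ : Representation k Γ N'}
    (f : ρ.IntertwiningMap σ) (φ : Module.Dual k N') (n : N) : dtMap ω f φ n = φ (f n) := rfl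

/-- the dual short exact sequence `0 → M' → P' → R' → 0` -/
def SES.dt {R P M : Type} [AddCommGroup R] [Module k R] [AddCommGroup P] [Module k P]
    [AddCommGroup M] [Module k M] {ρR : Representation k Γ R} {ρP : Representation k Γ P}
    {ρM : Representation k Γ M} (S : SES ρR ρP ρM) :
    SES (F.dt ω ρM) (F.dt ω ρP) (F.dt ω ρR) where
  i := dtMap ω S.π
  π := dtMap ω S.i
  inj := LinearMap.dualMap_injective_of_surjective (f := S.π.toLinearMap) S.surj
  surj := LinearMap.dualMap_surjective_of_injective (f := S.i.toLinearMap) S.inj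
  exact := by
    have h1 : Function.Exact S.i.toLinearMap S.π.toLinearMap := S.exact
    have h2 := LinearMap.exact_iff.mp h1
    show Function.Exact S.π.toLinearMap.dualMap S.i.toLinearMap.dualMap
    rw [LinearMap.exact_iff, LinearMap.ker_dualMap_eq_dualAnnihilator_range,
      LinearMap.range_dualMap_eq_dualAnnihilator_ker, h2]

theorem le_ker_dt (ρ : Representation k Γ N) : ρ.ker ⊓ ω.ker ≤ (dt ω ρ).ker := by
  rintro g ⟨h1, h2⟩
  replace h1 : ρ g⁻¹ = 1 := (MonoidHom.ker ρ).inv_mem h1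
  replace h2 : ω g = 1 := h2
  rw [MonoidHom.mem_ker]
  ext φ n
  rw [dt_apply_apply, h1, h2]
  simp

theorem isOpen_ker_dt (C : CohTheory k Γ) (hω : C.IsOpen ω.ker) (ρ : Representation k Γ N)
    (hρ : C.IsOpen ρ.ker) : C.IsOpen (dt ω ρ).ker :=
  C.isOpen_mono (le_ker_dt ω ρ) (C.isOpen_inf hρ hω)

theorem isOpen_ker_mu (C : CohTheory k Γ) (hω : C.IsOpen ω.ker) : C.IsOpen (mu ω).ker := by
  refine C.isOpen_mono ?_ hω
  intro g hg
  rw [MonoidHom.mem_ker] at hg ⊢
  ext
  rw [mu_apply_apply, hg]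
  simp

/-- local version: `H^0(D, N') = Hom_D(N, μ)` -/
def invDtRes {D : Type} [Group D] (r : D →* Γ) (ρ : Representation k Γ N) :
    (res r (dt ω ρ)).invariants ≃ₗ[k] (res r ρ).IntertwiningMap (res r (mu ω)) where
  toFun φ := ⟨φ.1, fun d => by
    ext n
    have h := LinearMap.congr_fun (φ.2 d) (ρ (r d) n)
    change dt ω ρ (r d) φ.1 (ρ (r d) n) = φ.1 (ρ (r d) n) at h
    rw [dt_apply_apply, ← Module.End.mul_apply, ← map_mul, inv_mul_cancel, map_one,
      Module.End.one_apply] at h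
    exact h.symm⟩
  map_add' _ _ := rfl
  map_smul' _ _ := rfl
  invFun f := ⟨f.toLinearMap, fun d => by
    ext n
    change dt ω ρ (r d) f.toLinearMap n = f n
    rw [dt_apply_apply]
    have h := IntertwiningMap.isIntertwining (res r ρ) (res r (mu ω)) f d (ρ (r d)⁻¹ n)
    change f (ρ (r d) (ρ (r d)⁻¹ n)) = mu ω (r d) (f (ρ (r d)⁻¹ n)) at h
    rw [← Module.End.mul_apply, ← map_mul, mul_inv_cancel, map_one, Module.End.one_apply,
      mu_apply_apply] at h
    exact h.symm⟩
  left_inv _ := rfl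
  right_inv _ := rfl

@[simp] theorem invDtRes_apply {D : Type} [Group D] (r : D →* Γ) (ρ : Representation k Γ N)
    (φ : (res r (dt ω ρ)).invariants) (n : N) :
    invDtRes ω r ρ φ n = (φ : Module.Dual k N) n := rfl

/-- `H^0(N') = Hom_Γ(N, μ)` -/
def invDt (ρ : Representation k Γ N) : (dt ω ρ).invariants ≃ₗ[k] ρ.IntertwiningMap (mu ω) :=
  invDtRes ω (MonoidHom.id Γ) ρ

@[simp] theorem invDt_apply (ρ : Representation k Γ N) (φ : (dt ω ρ).invariants) (n : N) :
    invDt ω ρ φ n = (φ : Module.Dual k N) n := rfl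

/-! ### the pairing between `CoInd_U Res N'` and `CoInd_U Res N` -/

/-- a finite set of representatives of `U\Γ` -/
theorem exists_dualRtv (U : Subgroup Γ) [U.FiniteIndex] :
    ∃ T : Finset Γ, ∀ γ : Γ, ∃! t, t ∈ T ∧ γ * t⁻¹ ∈ U := by
  obtain ⟨T, hT, -⟩ := Subgroup.exists_isComplement_right U 1
  refine ⟨hT.finite_right.toFinset, fun γ => ?_⟩
  obtain ⟨t, ht, huniq⟩ := Subgroup.isComplement_iff_existsUnique_mul_inv_mem.mp hT γ
  refine ⟨t, ⟨by simp, ht⟩, ?_⟩
  rintro s ⟨hs, hs'⟩
  have hsT : s ∈ T := by simpa using hs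
  exact congrArg Subtype.val (huniq ⟨s, hsT⟩ hs')

/-- the chosen set of representatives of `U\Γ` -/
def dualRtv (U : Subgroup Γ) [U.FiniteIndex] : Finset Γ := (exists_dualRtv U).choose

theorem dualRtv_spec (U : Subgroup Γ) [U.FiniteIndex] (γ : Γ) :
    ∃! t, t ∈ dualRtv U ∧ γ * t⁻¹ ∈ U := (exists_dualRtv U).choose_spec γ

open Classical in
/-- the element of `CoInd_U Res N` supported on `U γ` with value `n` at `γ` -/
def coindDelta (U : Subgroup Γ) (ρ : Representation k Γ N) (γ : Γ) :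
    N →ₗ[k] coindV U.subtype (res U.subtype ρ) where
  toFun n := ⟨fun x => if x * γ⁻¹ ∈ U then ρ (x * γ⁻¹) n else 0, fun u x => by
    have h : (U.subtype u * x * γ⁻¹ ∈ U) ↔ x * γ⁻¹ ∈ U := by
      rw [mul_assoc]
      exact U.mul_mem_cancel_left u.2
    beta_reduce
    by_cases hx : x * γ⁻¹ ∈ U
    · rw [if_pos (h.mpr hx), if_pos hx, mul_assoc, map_mul]
      rfl
    · rw [if_neg (fun h' => hx (h.mp h')), if_neg hx, map_zero]⟩
  map_add' a b := by
    ext x
    show (if x * γ⁻¹ ∈ U then ρ (x * γ⁻¹) (a + b) else 0) =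
      (if x * γ⁻¹ ∈ U then ρ (x * γ⁻¹) a else 0) + (if x * γ⁻¹ ∈ U then ρ (x * γ⁻¹) b else 0)
    split_ifs <;> simp
  map_smul' c a := by
    ext x
    show (if x * γ⁻¹ ∈ U then ρ (x * γ⁻¹) (c • a) else 0) =
      c • (if x * γ⁻¹ ∈ U then ρ (x * γ⁻¹) a else 0)
    split_ifs <;> simp

open Classical in
theorem coindDelta_apply (U : Subgroup Γ) (ρ : Representation k Γ N) (γ : Γ) (n : N) (x : Γ) :
    (coindDelta U ρ γ n).1 x = if x * γ⁻¹ ∈ U then ρ (x * γ⁻¹) n else 0 := rfl

/-- (K2) -/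
theorem sum_coindDelta (U : Subgroup Γ) [U.FiniteIndex] (ρ : Representation k Γ N)
    (f : coindV U.subtype (res U.subtype ρ)) :
    ∑ t ∈ dualRtv U, coindDelta U ρ t (f.1 t) = f := by
  ext x
  obtain ⟨t₀, ⟨ht₀, hx⟩, huniq⟩ := dualRtv_spec U x
  have : (∑ t ∈ dualRtv U, coindDelta U ρ t (f.1 t)).1 x =
      ∑ t ∈ dualRtv U, (coindDelta U ρ t (f.1 t)).1 x := by
    rw [Submodule.coe_sum, Finset.sum_apply]
  rw [this, Finset.sum_eq_single t₀]
  · rw [coindDelta_apply, if_pos hx]
    have := f.2 ⟨x * t₀⁻¹, hx⟩ t₀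
    simp only [Subgroup.subtype_apply, inv_mul_cancel_right] at this
    exact this.symm
  · intro t ht hne
    rw [coindDelta_apply, if_neg]
    exact fun h => hne (huniq t ⟨ht, h⟩)
  · intro h
    exact absurd ht₀ h

/-- (K3) -/
theorem coindDelta_mul (U : Subgroup Γ) (ρ : Representation k Γ N) (u : U) (γ : Γ) (n : N) :
    coindDelta U ρ (u * γ) n = coindDelta U ρ γ (ρ (u : Γ)⁻¹ n) := by
  ext x
  rw [coindDelta_apply, coindDelta_apply]
  have h : x * ((u : Γ) * γ)⁻¹ ∈ U ↔ x * γ⁻¹ ∈ U := by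
    rw [mul_inv_rev, ← mul_assoc]
    exact U.mul_mem_cancel_right (U.inv_mem u.2)
  by_cases hx : x * γ⁻¹ ∈ U
  · rw [if_pos (h.mpr hx), if_pos hx, mul_inv_rev, ← mul_assoc, map_mul]
    rfl
  · rw [if_neg (fun h' => hx (h.mp h')), if_neg hx]

/-- translation of `coindDelta` -/
theorem coind_coindDelta (U : Subgroup Γ) (ρ : Representation k Γ N) (g γ : Γ) (n : N) :
    coindRes U ρ g⁻¹ (coindDelta U ρ γ n) = coindDelta U ρ (γ * g) n := by
  ext x
  show (coindDelta U ρ γ n).1 (x * g⁻¹) = _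
  rw [coindDelta_apply, coindDelta_apply, mul_inv_rev, mul_assoc]

/-- the pairing `⟨F, f⟩ = ∑_{γ ∈ U\Γ} ω(γ)⁻¹ F(γ)(f(γ))` as a linear map -/
def dtCoindFun (U : Subgroup Γ) [U.FiniteIndex] (ρ : Representation k Γ N) :
    coindV U.subtype (res U.subtype (dt ω ρ)) →ₗ[k]
      Module.Dual k (coindV U.subtype (res U.subtype ρ)) :=
  ∑ t ∈ dualRtv U, (((ω t)⁻¹ : kˣ) : k) •
    ((LinearMap.proj t ∘ₗ (coindV U.subtype (res U.subtype ρ)).subtype).dualMap ∘ₗ
      (LinearMap.proj t ∘ₗ (coindV U.subtype (res U.subtype (dt ω ρ))).subtype))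

theorem dtCoindFun_apply (U : Subgroup Γ) [U.FiniteIndex] (ρ : Representation k Γ N)
    (F : coindV U.subtype (res U.subtype (dt ω ρ))) (f : coindV U.subtype (res U.subtype ρ)) :
    dtCoindFun ω U ρ F f = ∑ t ∈ dualRtv U, (((ω t)⁻¹ : kˣ) : k) * F.1 t (f.1 t) := by
  simp [dtCoindFun, LinearMap.sum_apply]

/-- (K1) -/
theorem dtCoindFun_coindDelta (U : Subgroup Γ) [U.FiniteIndex] (ρ : Representation k Γ N)
    (F : coindV U.subtype (res U.subtype (dt ω ρ))) (γ : Γ) (n : N) :
    dtCoindFun ω U ρ F (coindDelta U ρ γ n) = (((ω γ)⁻¹ : kˣ) : k) * F.1 γ n := by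
  obtain ⟨t₀, ⟨ht₀, hx⟩, huniq⟩ := dualRtv_spec U γ
  have hu : t₀ * γ⁻¹ ∈ U := by
    have := U.inv_mem hx
    simpa using this
  rw [dtCoindFun_apply, Finset.sum_eq_single t₀]
  · rw [coindDelta_apply, if_pos hu]
    have hF := F.2 ⟨t₀ * γ⁻¹, hu⟩ γ
    simp only [Subgroup.subtype_apply, inv_mul_cancel_right] at hF
    rw [hF]
    show _ * dt ω ρ (t₀ * γ⁻¹) (F.1 γ) (ρ (t₀ * γ⁻¹) n) = _
    rw [dt_apply_apply, ← Module.End.mul_apply, ← map_mul, inv_mul_cancel, map_one,
      Module.End.one_apply, ← mul_assoc, ← Units.val_mul, map_mul, map_inv]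
    congr 2
    group
  · intro t ht hne
    rw [coindDelta_apply, if_neg, map_zero, mul_zero]
    intro h
    apply hne
    apply huniq t ⟨ht, ?_⟩
    have := U.inv_mem h
    simpa using this
  · intro h
    exact absurd ht₀ h

/-- the inverse of the pairing map -/
def dtCoindInv (U : Subgroup Γ) (ρ : Representation k Γ N)
    (ψ : Module.Dual k (coindV U.subtype (res U.subtype ρ))) :
    coindV U.subtype (res U.subtype (dt ω ρ)) :=
  ⟨fun γ => (ω γ : k) • ψ ∘ₗ coindDelta U ρ γ, fun u γ => by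
    ext n
    show (ω ((u : Γ) * γ) : k) * ψ (coindDelta U ρ (u * γ) n) =
      dt ω ρ (u : Γ) ((ω γ : k) • ψ ∘ₗ coindDelta U ρ γ) n
    rw [dt_apply_apply, coindDelta_mul, map_mul, Units.val_mul, mul_assoc]
    rfl⟩

theorem dtCoindInv_apply (U : Subgroup Γ) (ρ : Representation k Γ N)
    (ψ : Module.Dual k (coindV U.subtype (res U.subtype ρ))) (γ : Γ) (n : N) :
    (dtCoindInv ω U ρ ψ).1 γ n = (ω γ : k) * ψ (coindDelta U ρ γ n) := rfl

/-- the pairing map as a linear equivalence -/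
def dtCoindLin (U : Subgroup Γ) [U.FiniteIndex] (ρ : Representation k Γ N) :
    coindV U.subtype (res U.subtype (dt ω ρ)) ≃ₗ[k]
      Module.Dual k (coindV U.subtype (res U.subtype ρ)) :=
  { dtCoindFun ω U ρ with
    invFun := dtCoindInv ω U ρ
    left_inv := fun F => by
      ext γ n
      show (dtCoindInv ω U ρ (dtCoindFun ω U ρ F)).1 γ n = F.1 γ n
      rw [dtCoindInv_apply, dtCoindFun_coindDelta, ← mul_assoc, ← Units.val_mul, mul_inv_cancel,
        Units.val_one, one_mul]
    right_inv := fun ψ => by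
      ext f
      show dtCoindFun ω U ρ (dtCoindInv ω U ρ ψ) f = ψ f
      rw [dtCoindFun_apply]
      conv_rhs => rw [← sum_coindDelta U ρ f, map_sum]
      refine Finset.sum_congr rfl fun t _ => ?_
      rw [dtCoindInv_apply, ← mul_assoc, ← Units.val_mul, inv_mul_cancel, Units.val_one, one_mul] }

/-- `CoInd_U Res (N') ≅ (CoInd_U Res N)'`, pairing `⟨F, f⟩ = ∑_{γ ∈ U\Γ} ω(γ)⁻¹ F(γ)(f(γ))` -/
def dtCoind (U : Subgroup Γ) [U.FiniteIndex] (ρ : Representation k Γ N) [Module.Finite k N] :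
    (coindRes U (dt ω ρ)).Equiv (dt ω (coindRes U ρ)) :=
  Representation.Equiv.mk (dtCoindLin ω U ρ) fun g => by
    ext F f
    show dtCoindFun ω U ρ (coindRes U (dt ω ρ) g F) f =
      dt ω (coindRes U ρ) g (dtCoindFun ω U ρ F) f
    rw [dt_apply_apply]
    have key : ∀ (γ : Γ) (n : N), dtCoindFun ω U ρ (coindRes U (dt ω ρ) g F) (coindDelta U ρ γ n) =
        (ω g : k) * dtCoindFun ω U ρ F (coindRes U ρ g⁻¹ (coindDelta U ρ γ n)) := by
      intro γ n
      rw [coind_coindDelta, dtCoindFun_coindDelta, dtCoindFun_coindDelta, ← mul_assoc,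
        ← Units.val_mul, map_mul, mul_inv_rev, mul_inv_cancel_left]
      rfl
    rw [← sum_coindDelta U ρ f]
    simp only [map_sum, Finset.mul_sum]
    exact Finset.sum_congr rfl fun t _ => key t _

theorem dtCoind_apply (U : Subgroup Γ) [U.FiniteIndex] (ρ : Representation k Γ N)
    [Module.Finite k N] (F : coindV U.subtype (res U.subtype (dt ω ρ))) :
    dtCoind ω U ρ F = dtCoindFun ω U ρ F := rfl

/-- under `dtCoind` the unit of `N'` is the transpose of the counit of `N` -/
theorem dtCoind_unit (U : Subgroup Γ) [U.FiniteIndex] (ρ : Representation k Γ N)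
    [Module.Finite k N] (φ : Module.Dual k N) :
    dtCoind ω U ρ (unit U (dt ω ρ) φ) = dtMap ω (counit U ρ) φ := by
  ext f
  rw [dtCoind_apply, dtCoindFun_apply, dtMap_apply, counit_eq_sum U ρ (dualRtv U) (dualRtv_spec U) f,
    map_sum]
  refine Finset.sum_congr rfl fun t _ => ?_
  rw [unit_apply_coe, dt_apply_apply, ← mul_assoc, ← Units.val_mul, inv_mul_cancel, Units.val_one,
    one_mul]

/-- isomorphic representations of `U` have isomorphic coinductions (local copy) -/
def dualCoindEquiv (U : Subgroup Γ) {σ : Representation k U N} {σ' : Representation k U N'}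
    (e : σ.Equiv σ') : (coindS U σ).Equiv (coindS U σ') :=
  Representation.Equiv.mk
    { (coindMap U.subtype e.toIntertwiningMap).toLinearMap with
      invFun := coindMap U.subtype e.symm.toIntertwiningMap
      left_inv := fun x => by
        ext γ
        exact e.symm_apply_apply _
      right_inv := fun x => by
        ext γ
        exact e.apply_symm_apply _ }
    (coindMap U.subtype e.toIntertwiningMap).isIntertwining'

/-- `Res_U μ` is trivial when `U` acts trivially on `μ` -/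
def resMuEquiv (U : Subgroup Γ) (hU : U ≤ ω.ker) :
    (res U.subtype (mu ω)).Equiv (Representation.trivial k U k) :=
  Representation.Equiv.mk (LinearEquiv.refl k k) fun u => by
    ext
    show mu ω (u : Γ) 1 = 1
    rw [mu_apply_apply, (hU u.2 : ω u = 1)]
    simp

/-- `CoInd_U Res μ ≅ X_U` when `U` acts trivially on `μ` -/
def coindResMuEquivX (U : Subgroup Γ) (hU : U ≤ ω.ker) : (coindRes U (mu ω)).Equiv (X k U) :=
  dualCoindEquiv U (resMuEquiv ω U hU)

/-- `Res_U (k')` is trivial when `U` acts trivially on `μ` -/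
def resDtTrivialEquiv (U : Subgroup Γ) (hU : U ≤ ω.ker) :
    (res U.subtype (dt ω (Representation.trivial k Γ k))).Equiv (Representation.trivial k U k) :=
  Representation.Equiv.mk (LinearMap.ringLmapEquivSelf k k k) fun u => by
    ext φ
    show dt ω (Representation.trivial k Γ k) (u : Γ) φ 1 = φ 1
    rw [dt_apply_apply, (hU u.2 : ω u = 1)]
    simp

/-- `X_U' ≅ X_U` when `U` acts trivially on `μ` -/
def dtX (U : Subgroup Γ) [U.FiniteIndex] (hU : U ≤ ω.ker) : (dt ω (X k U)).Equiv (X k U) :=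
  (dtCoind ω U (Representation.trivial k Γ k)).symm.trans
    (dualCoindEquiv U (resDtTrivialEquiv ω U hU))

/-- equivalent representations have equivalent invariants -/
def dualInvEquiv {ρ : Representation k Γ N} {σ : Representation k Γ N'} (e : ρ.Equiv σ) :
    ρ.invariants ≃ₗ[k] σ.invariants :=
  { invMap e.toIntertwiningMap with
    invFun := invMap e.symm.toIntertwiningMap
    left_inv := fun _ => Subtype.ext (e.symm_apply_apply _)
    right_inv := fun _ => Subtype.ext (e.apply_symm_apply _) }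

/-- Shapiro in degree `0` (local copy) -/
def dualInvariantsCoind (U : Subgroup Γ) (σ : Representation k U N) :
    (coindS U σ).invariants ≃ₗ[k] σ.invariants where
  toFun F := ⟨F.1.1 1, fun u => by
    have h1 := F.1.2 u 1
    have h2 := congrArg (fun G : coindV U.subtype σ => G.1 1) (F.2 (u : Γ))
    change F.1.1 (1 * (u : Γ)) = F.1.1 1 at h2
    rw [← h1, ← h2]
    simp⟩
  map_add' _ _ := rfl
  map_smul' _ _ := rfl
  invFun n := ⟨⟨fun _ => n.1, fun u _ => (n.2 u).symm⟩, fun _ => rfl⟩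
  left_inv F := by
    ext γ
    have h2 := congrArg (fun G : coindV U.subtype σ => G.1 1) (F.2 γ)
    change F.1.1 (1 * γ) = F.1.1 1 at h2
    rw [one_mul] at h2
    exact h2.symm
  right_inv _ := rfl

/-- Frobenius reciprocity, numerical form -/
theorem finrank_hom_coindRes_mu (U : Subgroup Γ) [U.FiniteIndex] (ρ : Representation k Γ N)
    [Module.Finite k N] (hU : U ≤ ω.ker) (hρ : U ≤ ρ.ker) :
    finrank k ((coindRes U ρ).IntertwiningMap (mu ω)) = finrank k N := by
  have e := ((invDt ω (coindRes U ρ)).symm.trans (dualInvEquiv (dtCoind ω U ρ)).symm).trans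
    (dualInvariantsCoind U (res U.subtype (dt ω ρ)))
  have htop : (res U.subtype (dt ω ρ)).invariants = ⊤ := by
    rw [eq_top_iff]
    intro φ _ u
    have : dt ω ρ (u : Γ) = 1 := le_ker_dt ω ρ ⟨hρ u.2, hU u.2⟩
    show dt ω ρ (u : Γ) φ = φ
    rw [this]
    rfl
  rw [e.finrank_eq, htop, finrank_top, Subspace.dual_finrank_eq]

theorem finrank_hom_X_mu (U : Subgroup Γ) [U.FiniteIndex] (hU : U ≤ ω.ker) :
    finrank k ((X k U).IntertwiningMap (mu ω)) = 1 := by
  have h := finrank_hom_coindRes_mu ω U (Representation.trivial k Γ k) hU (fun u _ => rfl)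
  rw [finrank_self] at h
  exact h

/-- a nonzero intertwining map to `μ` is surjective -/
theorem surjective_of_ne_zero {ρ : Representation k Γ N} (φ : ρ.IntertwiningMap (mu ω))
    (hφ : φ ≠ 0) : Function.Surjective φ := by
  have h : φ.toLinearMap ≠ 0 := fun h => hφ (IntertwiningMap.ext h)
  exact LinearMap.surjective h

end

end Fermat.Agent.S55.F
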