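/-
S55 / F-abs / RT-E : kernels and cokernels of intertwining maps as representations, split sequences.
-/
import Fermat.Agent.S55.F.Basic

set_option autoImplicit false

namespace Fermat.Agent.S55.F

open Representation Module

noncomputable section

variable {k : Type} [Field k] {Γ : Type} [Group Γ]
variable {P M R : Type} [AddCommGroup P] [Module k P] [AddCommGroup M] [Module k M]
  [AddCommGroup R] [Module k R]

/-- the representation on the kernel of an intertwining map -/
def kerRep {ρP : Representation k Γ P} {ρM : Representation k Γ M}
    (π : ρP.IntertwiningMap ρM) : Representation k Γ (LinearMap.ker π.toLinearMap) where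
  toFun g := (ρP g).restrict fun x hx => by
    rw [LinearMap.mem_ker] at hx ⊢
    rw [IntertwiningMap.toLinearMap_apply, π.isIntertwining, ← IntertwiningMap.toLinearMap_apply,
      hx, map_zero]
  map_one' := by
    ext x
    simp
  map_mul' g h := by
    ext x
    simp

@[simp] theorem kerRep_apply_coe {ρP : Representation k Γ P} {ρM : Representation k Γ M}
    (π : ρP.IntertwiningMap ρM) (g : Γ) (x : LinearMap.ker π.toLinearMap) :
    ((kerRep π g x : LinearMap.ker π.toLinearMap) : P) = ρP g x := rfl

/-- `0 → ker π → P → M → 0` -/
def kerSES {ρP : Representation k Γ P} {ρM : Representation k Γ M}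
    (π : ρP.IntertwiningMap ρM) (hπ : Function.Surjective π) : SES (kerRep π) ρP ρM where
  i := ⟨(LinearMap.ker π.toLinearMap).subtype, fun g => by ext x; rfl⟩
  π := π
  inj := Subtype.val_injective
  surj := hπ
  exact := fun y => by
    constructor
    · intro hy
      exact ⟨⟨y, hy⟩, rfl⟩
    · rintro ⟨x, rfl⟩
      exact x.2

@[simp] theorem kerSES_π {ρP : Representation k Γ P} {ρM : Representation k Γ M}
    (π : ρP.IntertwiningMap ρM) (hπ : Function.Surjective π) : (kerSES π hπ).π = π := rfl

@[simp] theorem kerSES_i_apply {ρP : Representation k Γ P} {ρM : Representation k Γ M}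
    (π : ρP.IntertwiningMap ρM) (hπ : Function.Surjective π) (x : LinearMap.ker π.toLinearMap) :
    (kerSES π hπ).i x = (x : P) := rfl

/-- the representation on the cokernel of an intertwining map -/
def cokerRep {ρR : Representation k Γ R} {ρP : Representation k Γ P}
    (i : ρR.IntertwiningMap ρP) : Representation k Γ (P ⧸ LinearMap.range i.toLinearMap) where
  toFun g := (LinearMap.range i.toLinearMap).mapQ (LinearMap.range i.toLinearMap) (ρP g) (by
    rintro _ ⟨x, rfl⟩
    exact ⟨ρR g x, by
      rw [IntertwiningMap.toLinearMap_apply, i.isIntertwining, IntertwiningMap.toLinearMap_apply]⟩)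
  map_one' := by
    ext x
    simp
  map_mul' g h := by
    ext x
    simp

@[simp] theorem cokerRep_apply_mk {ρR : Representation k Γ R} {ρP : Representation k Γ P}
    (i : ρR.IntertwiningMap ρP) (g : Γ) (x : P) :
    cokerRep i g (Submodule.Quotient.mk x) = Submodule.Quotient.mk (ρP g x) := rfl

/-- `0 → R → P → coker i → 0` -/
def cokerSES {ρR : Representation k Γ R} {ρP : Representation k Γ P}
    (i : ρR.IntertwiningMap ρP) (hi : Function.Injective i) : SES ρR ρP (cokerRep i) where
  i := i
  π := ⟨(LinearMap.range i.toLinearMap).mkQ, fun g => by ext x; rfl⟩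
  inj := hi
  surj := Submodule.mkQ_surjective _
  exact := fun y => by
    constructor
    · intro hy
      have : y ∈ LinearMap.range i.toLinearMap := (Submodule.Quotient.mk_eq_zero _).1 hy
      exact this
    · rintro ⟨x, rfl⟩
      exact (Submodule.Quotient.mk_eq_zero _).2 ⟨x, rfl⟩

@[simp] theorem cokerSES_i {ρR : Representation k Γ R} {ρP : Representation k Γ P}
    (i : ρR.IntertwiningMap ρP) (hi : Function.Injective i) : (cokerSES i hi).i = i := rfl

/-- in a short exact sequence the kernels of the outer terms contain the kernel of the middle one -/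
theorem SES.ker_le_left {ρR : Representation k Γ R} {ρP : Representation k Γ P}
    {ρM : Representation k Γ M} (S : SES ρR ρP ρM) : ρP.ker ≤ ρR.ker := by
  intro g hg
  rw [MonoidHom.mem_ker] at hg ⊢
  ext x
  apply S.inj
  rw [S.i.isIntertwining, hg]
  rfl

theorem SES.ker_le_right {ρR : Representation k Γ R} {ρP : Representation k Γ P}
    {ρM : Representation k Γ M} (S : SES ρR ρP ρM) : ρP.ker ≤ ρM.ker := by
  intro g hg
  rw [MonoidHom.mem_ker] at hg ⊢
  ext x
  obtain ⟨y, rfl⟩ := S.surj x
  rw [← S.π.isIntertwining, hg]
  rfl

theorem SES.finite_left {ρR : Representation k Γ R} {ρP : Representation k Γ P}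
    {ρM : Representation k Γ M} (S : SES ρR ρP ρM) [Module.Finite k P] : Module.Finite k R :=
  Module.Finite.of_injective S.i.toLinearMap S.inj

theorem SES.finite_right {ρR : Representation k Γ R} {ρP : Representation k Γ P}
    {ρM : Representation k Γ M} (S : SES ρR ρP ρM) [Module.Finite k P] : Module.Finite k M :=
  Module.Finite.of_surjective S.π.toLinearMap S.surj

theorem SES.finite_mid {ρR : Representation k Γ R} {ρP : Representation k Γ P}
    {ρM : Representation k Γ M} (S : SES ρR ρP ρM) [Module.Finite k R] [Module.Finite k M] :
    Module.Finite k P :=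
  Module.Finite.of_exact (f := S.i.toLinearMap) (g := S.π.toLinearMap) S.exact S.surj

theorem SES.finrank_eq {ρR : Representation k Γ R} {ρP : Representation k Γ P}
    {ρM : Representation k Γ M} (S : SES ρR ρP ρM) [Module.Finite k P] :
    finrank k P = finrank k R + finrank k M := by
  have h1 := LinearMap.finrank_range_add_finrank_ker S.π.toLinearMap
  have h2 : LinearMap.range S.π.toLinearMap = ⊤ := LinearMap.range_eq_top.2 S.surj
  have h3 : LinearMap.ker S.π.toLinearMap = LinearMap.range S.i.toLinearMap :=
    (LinearMap.exact_iff.1 S.exact)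
  rw [h2, h3, finrank_top, LinearMap.finrank_range_of_inj S.inj] at h1
  omega

/-- a linear map as an intertwining map of trivial representations -/
def trivMap {N N' : Type} [AddCommGroup N] [Module k N] [AddCommGroup N'] [Module k N']
    (f : N →ₗ[k] N') :
    (Representation.trivial k Γ N).IntertwiningMap (Representation.trivial k Γ N') :=
  ⟨f, fun g => by ext x; simp⟩

@[simp] theorem trivMap_apply {N N' : Type} [AddCommGroup N] [Module k N] [AddCommGroup N']
    [Module k N'] (f : N →ₗ[k] N') (x : N) : (trivMap (Γ := Γ) f) x = f x := rfl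

/-- a short exact sequence of TRIVIAL representations from a nonzero vector:
`0 → k → N → N/k v → 0` -/
theorem exists_SES_trivial (N : Type) [AddCommGroup N] [Module k N] [Module.Finite k N]
    (hN : 0 < finrank k N) :
    ∃ (Q : Type) (_ : AddCommGroup Q) (_ : Module k Q) (_ : Module.Finite k Q)
      (S : SES (Representation.trivial k Γ k) (Representation.trivial k Γ N)
        (Representation.trivial k Γ Q)),
      finrank k Q + 1 = finrank k N ∧
      ∃ s : (Representation.trivial k Γ Q).IntertwiningMap (Representation.trivial k Γ N),
        ∀ x, S.π (s x) = x := by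
  have : Nontrivial N := Module.nontrivial_of_finrank_pos hN
  obtain ⟨v, hv⟩ := exists_ne (0 : N)
  let U : Submodule k N := Submodule.span k {v}
  obtain ⟨s, hs⟩ := LinearMap.exists_rightInverse_of_surjective U.mkQ
    (LinearMap.range_eq_top.2 (Submodule.mkQ_surjective U))
  refine ⟨N ⧸ U, inferInstance, inferInstance, inferInstance,
    { i := trivMap (LinearMap.toSpanSingleton k N v)
      π := trivMap U.mkQ
      inj := ?_
      surj := Submodule.mkQ_surjective U
      exact := ?_ }, ?_, trivMap s, fun x => LinearMap.congr_fun hs x⟩
  · intro a b hab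
    have h1 : a • v = b • v := hab
    exact smul_left_injective k hv h1
  · intro y
    constructor
    · intro hy
      have h1 : y ∈ U := (Submodule.Quotient.mk_eq_zero _).1 hy
      obtain ⟨a, ha⟩ := Submodule.mem_span_singleton.1 h1
      exact ⟨a, ha⟩
    · rintro ⟨a, rfl⟩
      exact (Submodule.Quotient.mk_eq_zero _).2 (Submodule.mem_span_singleton.2 ⟨a, rfl⟩)
  · have h1 := Submodule.finrank_quotient_add_finrank U
    rw [finrank_span_singleton hv] at h1
    exact h1

end

end Fermat.Agent.S55.F
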