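/-
S55 / F-abs / RT-A : basic facts on coinduced representations (pure representation theory).
-/
import Fermat.Agent.S55.F.Basic

set_option autoImplicit false
set_option linter.unusedVariables false

namespace Fermat.Agent.S55.F

open Representation Module

noncomputable section

variable {k : Type} [Field k] {Γ : Type} [Group Γ]

/-! ### a transversal of `U \ Γ` -/

/-- the set of right cosets `U \ Γ` -/
abbrev RCos (U : Subgroup Γ) : Type := Quotient (QuotientGroup.rightRel U)

/-- the class `U γ` -/
def rcMk (U : Subgroup Γ) (g : Γ) : RCos U := Quotient.mk (QuotientGroup.rightRel U) g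

/-- the chosen representative of a coset -/
def rcRep (U : Subgroup Γ) (q : RCos U) : Γ := Quotient.out q

lemma rcMk_rcRep (U : Subgroup Γ) (q : RCos U) : rcMk U (rcRep U q) = q := Quotient.out_eq q

lemma rcMk_mul (U : Subgroup Γ) (u : U) (g : Γ) : rcMk U ((u : Γ) * g) = rcMk U g :=
  Quotient.sound (QuotientGroup.rightRel_apply.2 (by simp))

lemma rcMk_eq_iff (U : Subgroup Γ) (g h : Γ) : rcMk U g = rcMk U h ↔ h * g⁻¹ ∈ U :=
  Quotient.eq.trans QuotientGroup.rightRel_apply

/-- `γ = rcU γ * rep (U γ)` -/
def rcU (U : Subgroup Γ) (g : Γ) : U :=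
  ⟨g * (rcRep U (rcMk U g))⁻¹, (rcMk_eq_iff U _ _).1 (rcMk_rcRep U (rcMk U g))⟩

lemma rcU_mul_rep (U : Subgroup Γ) (g : Γ) : (rcU U g : Γ) * rcRep U (rcMk U g) = g := by
  simp [rcU]

lemma rcU_mul (U : Subgroup Γ) (u : U) (g : Γ) : rcU U ((u : Γ) * g) = u * rcU U g := by
  ext
  simp [rcU, rcMk_mul, mul_assoc]

lemma rcU_rep (U : Subgroup Γ) (q : RCos U) : rcU U (rcRep U q) = 1 := by
  ext
  simp [rcU, rcMk_rcRep]

instance finite_RCos (U : Subgroup Γ) [U.FiniteIndex] : Finite (RCos U) :=
  Finite.of_equiv _ (QuotientGroup.quotientRightRelEquivQuotientLeftRel U).symm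

lemma card_RCos (U : Subgroup Γ) : Nat.card (RCos U) = U.index :=
  Nat.card_congr (QuotientGroup.quotientRightRelEquivQuotientLeftRel U)

section Transversal

variable {N : Type} [AddCommGroup N] [Module k N]

lemma coind_apply_eq (U : Subgroup Γ) (σ : Representation k U N) (f : coindV U.subtype σ) (g : Γ) :
    f.1 g = σ (rcU U g) (f.1 (rcRep U (rcMk U g))) := by
  have := f.2 (rcU U g) (rcRep U (rcMk U g))
  rw [← this]
  exact congrArg f.1 (rcU_mul_rep U g).symm

/-- a function in `CoInd_U σ` is determined by its values on a transversal -/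
def coindVEquivFun (U : Subgroup Γ) (σ : Representation k U N) :
    coindV U.subtype σ ≃ₗ[k] (RCos U → N) where
  toFun f q := f.1 (rcRep U q)
  map_add' _ _ := rfl
  map_smul' _ _ := rfl
  invFun y := ⟨fun g => σ (rcU U g) (y (rcMk U g)), fun u g => by
    show σ (rcU U ((u : Γ) * g)) (y (rcMk U ((u : Γ) * g))) = _
    rw [rcU_mul, rcMk_mul, map_mul]
    rfl⟩
  left_inv f := by
    apply Subtype.ext
    funext g
    exact (coind_apply_eq U σ f g).symm
  right_inv y := by
    funext q
    show σ (rcU U (rcRep U q)) (y (rcMk U (rcRep U q))) = y q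
    rw [rcU_rep, rcMk_rcRep, map_one]
    rfl

end Transversal

/-- coinduction is exact -/
def SES.coind (U : Subgroup Γ) {R P M : Type} [AddCommGroup R] [Module k R] [AddCommGroup P]
    [Module k P] [AddCommGroup M] [Module k M] {σR : Representation k U R}
    {σP : Representation k U P} {σM : Representation k U M} (S : SES σR σP σM) :
    SES (coindS U σR) (coindS U σP) (coindS U σM) where
  i := coindMap U.subtype S.i
  π := coindMap U.subtype S.π
  inj := fun a b h => by
    apply Subtype.ext
    funext g
    apply S.inj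
    exact congrArg (fun f : coindV U.subtype σP => f.1 g) h
  surj := fun y => by
    choose s hs using S.surj
    refine ⟨(coindVEquivFun U σP).symm (fun q => s (y.1 (rcRep U q))), ?_⟩
    apply Subtype.ext
    funext g
    show S.π (σP (rcU U g) (s (y.1 (rcRep U (rcMk U g))))) = y.1 g
    rw [S.π.isIntertwining, hs, ← coind_apply_eq]
  exact := fun y => by
    constructor
    · intro h
      have h' : ∀ g, S.π (y.1 g) = 0 := fun g =>
        congrArg (fun f : coindV U.subtype σM => f.1 g) h
      choose s hs using fun g => (S.exact (y.1 g)).1 (h' g)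
      refine ⟨(coindVEquivFun U σR).symm (fun q => s (rcRep U q)), ?_⟩
      apply Subtype.ext
      funext g
      show S.i (σR (rcU U g) (s (rcRep U (rcMk U g)))) = y.1 g
      rw [S.i.isIntertwining, hs, ← coind_apply_eq]
    · rintro ⟨x, rfl⟩
      apply Subtype.ext
      funext g
      exact (S.exact _).2 ⟨x.1 g, rfl⟩

variable {N : Type} [AddCommGroup N] [Module k N]

instance finite_coindV (U : Subgroup Γ) [U.FiniteIndex] (σ : Representation k U N)
    [Module.Finite k N] : Module.Finite k (coindV U.subtype σ) :=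
  Module.Finite.equiv (coindVEquivFun U σ).symm

theorem finrank_coindV (U : Subgroup Γ) [U.FiniteIndex] (σ : Representation k U N)
    [Module.Finite k N] : finrank k (coindV U.subtype σ) = U.index * finrank k N := by
  have := Fintype.ofFinite (RCos U)
  rw [(coindVEquivFun U σ).finrank_eq, Module.finrank_pi_fintype]
  simp [← card_RCos, Nat.card_eq_fintype_card]

/-- a normal subgroup `W ≤ U` acting trivially on `σ` acts trivially on `CoInd_U σ` -/
theorem le_ker_coindS (U W : Subgroup Γ) [W.Normal] (hWU : W ≤ U) (σ : Representation k U N)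
    (hσ : ∀ u : U, (u : Γ) ∈ W → σ u = 1) : W ≤ (coindS U σ).ker := by
  intro w hw
  rw [MonoidHom.mem_ker]
  ext f g
  show f.1 (g * w) = f.1 g
  have hc : g * w * g⁻¹ ∈ W := Subgroup.Normal.conj_mem inferInstance w hw g
  have h1 := f.2 ⟨g * w * g⁻¹, hWU hc⟩ g
  rw [hσ ⟨g * w * g⁻¹, hWU hc⟩ hc] at h1
  simpa using h1

theorem isOpen_ker_coindS (C : CohTheory k Γ) {U : Subgroup Γ} (hU : C.IsOpen U)
    (σ : Representation k U N) (hσ : C.IsOpen (σ.ker.map U.subtype)) :
    C.IsOpen (coindS U σ).ker := by
  refine C.isOpen_mono ?_ (C.isOpen_normalCore hσ)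
  have hle : (σ.ker.map U.subtype).normalCore ≤ σ.ker.map U.subtype := Subgroup.normalCore_le _
  refine le_ker_coindS U _ (hle.trans (Subgroup.map_subtype_le _)) σ ?_
  intro u hu
  obtain ⟨u', hu', he⟩ := hle hu
  have : u' = u := Subtype.ext he
  rw [← this]
  exact hu'

theorem isOpen_ker_coindRes (C : CohTheory k Γ) {U : Subgroup Γ} (hU : C.IsOpen U)
    (ρ : Representation k Γ N) (hρ : C.IsOpen ρ.ker) : C.IsOpen (coindRes U ρ).ker := by
  refine isOpen_ker_coindS C hU _ (C.isOpen_mono ?_ (C.isOpen_inf hU hρ))
  intro g hg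
  exact ⟨⟨g, hg.1⟩, hg.2, rfl⟩

theorem isOpen_ker_X (C : CohTheory k Γ) {U : Subgroup Γ} (hU : C.IsOpen U) :
    C.IsOpen (X k U).ker := by
  refine isOpen_ker_coindS C hU _ (C.isOpen_mono ?_ hU)
  intro g hg
  exact ⟨⟨g, hg⟩, (MonoidHom.mem_ker (f := Representation.trivial k U k)).2 rfl, rfl⟩

/-- Shapiro in degree `0` -/
def invariantsCoind (U : Subgroup Γ) (σ : Representation k U N) :
    (coindS U σ).invariants ≃ₗ[k] σ.invariants where
  toFun f := ⟨f.1.1 1, fun u => by
    have h1 := f.1.2 u 1
    have h2 : (coindS U σ (u : Γ) f.1).1 1 = f.1.1 1 := by rw [f.2 (u : Γ)]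
    have h3 : (coindS U σ (u : Γ) f.1).1 1 = f.1.1 (1 * (u : Γ)) := rfl
    rw [← h1, ← h2, h3]
    simp⟩
  map_add' _ _ := rfl
  map_smul' _ _ := rfl
  invFun n := ⟨⟨fun _ => n.1, fun u _ => (n.2 u).symm⟩, fun _ => rfl⟩
  left_inv f := by
    apply Subtype.ext
    apply Subtype.ext
    funext g
    have h2 : (coindS U σ g f.1).1 1 = f.1.1 1 := by rw [f.2 g]
    have h3 : (coindS U σ g f.1).1 1 = f.1.1 (1 * g) := rfl
    show f.1.1 1 = f.1.1 g
    rw [← h2, h3, one_mul]
  right_inv n := rfl

theorem finrank_invariants_X (U : Subgroup Γ) : finrank k (X k U).invariants = 1 := by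
  rw [(invariantsCoind U (Representation.trivial k U k)).finrank_eq]
  have : (Representation.trivial k U k).invariants = ⊤ := by
    rw [eq_top_iff]
    intro x _ u
    rfl
  rw [this, finrank_top, finrank_self]

theorem unit_injective (U : Subgroup Γ) (ρ : Representation k Γ N) :
    Function.Injective (unit U ρ) := by
  intro a b h
  have := congrArg (fun f : coindV U.subtype (res U.subtype ρ) => f.1 1) h
  simpa using this

/-- naturality of the unit -/
theorem unit_naturality (U : Subgroup Γ) {N' : Type} [AddCommGroup N'] [Module k N']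
    {ρ : Representation k Γ N} {ρ' : Representation k Γ N'} (f : ρ.IntertwiningMap ρ') (n : N) :
    coindMap U.subtype (resMap U.subtype f) (unit U ρ n) = unit U ρ' (f n) := by
  apply Subtype.ext
  funext g
  show f (ρ g n) = ρ' g (f n)
  exact IntertwiningMap.isIntertwining _ _ f g n

/-- isomorphic representations of `U` have isomorphic coinductions -/
def coindEquiv (U : Subgroup Γ) {N' : Type} [AddCommGroup N'] [Module k N']
    {σ : Representation k U N} {σ' : Representation k U N'} (e : σ.Equiv σ') :
    (coindS U σ).Equiv (coindS U σ') :=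
  Representation.Equiv.mk
    { toFun := coindMap U.subtype e.toIntertwiningMap
      map_add' := map_add _
      map_smul' := map_smul _
      invFun := coindMap U.subtype e.symm.toIntertwiningMap
      left_inv := fun f => by
        apply Subtype.ext
        funext g
        show e.symm (e (f.1 g)) = f.1 g
        exact e.symm_apply_apply _
      right_inv := fun f => by
        apply Subtype.ext
        funext g
        show e (e.symm (f.1 g)) = f.1 g
        exact e.apply_symm_apply _ }
    (fun g => (coindMap U.subtype e.toIntertwiningMap).isIntertwining' g)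

end

end Fermat.Agent.S55.F
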