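/-
S55 / F-abs / RT-F : transitivity of coinduction (for representations trivial on the small group).
-/
import Fermat.Agent.S55.F.Basic

set_option autoImplicit false

namespace Fermat.Agent.S55.F

open Representation Module

noncomputable section

variable {k : Type} [Field k] {Γ : Type} [Group Γ]
variable {N : Type} [AddCommGroup N] [Module k N]

/-- coinductions of pointwise equal representations are equivalent (identity on functions). -/
def coindEquivOfEq (U : Subgroup Γ) (τ τ' : Representation k U N) (h : ∀ u, τ u = τ' u) :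
    (coindS U τ).Equiv (coindS U τ') :=
  Representation.Equiv.mk
    { toFun := fun f => ⟨f.1, fun u γ => by rw [f.2 u γ, h u]⟩
      map_add' := fun _ _ => rfl
      map_smul' := fun _ _ => rfl
      invFun := fun f => ⟨f.1, fun u γ => by rw [f.2 u γ, h u]⟩
      left_inv := fun _ => rfl
      right_inv := fun _ => rfl }
    (fun _ => rfl)

/-- the general form of transitivity: `τ` is any representation of `W` (inside `U₁`) which is
pointwise trivial. `F ↦ (γ ↦ F γ 1)`. -/
def coindTransGen (U₁ W : Subgroup Γ) (hW : W ≤ U₁) (τ : Representation k (W.subgroupOf U₁) N)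
    (hτ : ∀ w, τ w = 1) :
    (coindS U₁ (coindS (W.subgroupOf U₁) τ)).Equiv (coindS W (Representation.trivial k W N)) :=
  Representation.Equiv.mk
    { toFun := fun F => ⟨fun γ => (F.1 γ).1 1, fun w γ => by
        have h1 := F.2 ⟨w.1, hW w.2⟩ γ
        have h2 : (F.1 ((w : Γ) * γ)).1 1 = (F.1 γ).1 (1 * ⟨w.1, hW w.2⟩) :=
          congrArg (fun G : coindV (W.subgroupOf U₁).subtype τ => G.1 1) h1
        have h3 := (F.1 γ).2 ⟨⟨w.1, hW w.2⟩, Subgroup.mem_subgroupOf.mpr w.2⟩ 1
        rw [hτ] at h3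
        show (F.1 ((w : Γ) * γ)).1 1 = (F.1 γ).1 1
        rw [h2, one_mul]
        simpa using h3⟩
      map_add' := fun _ _ => rfl
      map_smul' := fun _ _ => rfl
      invFun := fun f => ⟨fun γ => ⟨fun u => f.1 ((u : Γ) * γ), fun w u => by
          have h1 := f.2 ⟨(w : U₁).1, Subgroup.mem_subgroupOf.mp w.2⟩ ((u : Γ) * γ)
          rw [hτ]
          simpa [mul_assoc] using h1⟩, fun u₀ γ => by
          apply Subtype.ext
          funext u
          show f.1 ((u : Γ) * ((u₀ : Γ) * γ)) = f.1 (((u * u₀ : U₁) : Γ) * γ)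
          rw [Subgroup.coe_mul, mul_assoc]⟩
      left_inv := fun F => by
        apply Subtype.ext
        funext γ
        apply Subtype.ext
        funext u
        show (F.1 ((u : Γ) * γ)).1 1 = (F.1 γ).1 u
        have h1 := F.2 u γ
        have h2 : (F.1 ((u : Γ) * γ)).1 1 = (F.1 γ).1 (1 * u) :=
          congrArg (fun G : coindV (W.subgroupOf U₁).subtype τ => G.1 1) h1
        rw [h2, one_mul]
      right_inv := fun f => by
        apply Subtype.ext
        funext γ
        show f.1 (((1 : U₁) : Γ) * γ) = f.1 γ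
        simp }
    (fun _ => rfl)

theorem coindTransGen_apply_coe (U₁ W : Subgroup Γ) (hW : W ≤ U₁)
    (τ : Representation k (W.subgroupOf U₁) N) (hτ : ∀ w, τ w = 1)
    (F : coindV U₁.subtype (coindS (W.subgroupOf U₁) τ)) (γ : Γ) :
    (coindTransGen U₁ W hW τ hτ F).1 γ = (F.1 γ).1 1 := rfl

theorem coindTransGen_symm_apply_coe (U₁ W : Subgroup Γ) (hW : W ≤ U₁)
    (τ : Representation k (W.subgroupOf U₁) N) (hτ : ∀ w, τ w = 1)
    (f : coindV W.subtype (Representation.trivial k W N)) (γ : Γ) (u : U₁) :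
    (((coindTransGen U₁ W hW τ hτ).symm f).1 γ).1 u = f.1 ((u : Γ) * γ) := rfl

/-- `CoInd_{U₁}^Γ CoInd_W^{U₁} N ≅ CoInd_W^Γ N` for a trivial `W`-module `N` -/
def coindTrans (U₁ W : Subgroup Γ) (hW : W ≤ U₁) (N : Type) [AddCommGroup N] [Module k N] :
    (coindS U₁ (coindS (W.subgroupOf U₁)
      (Representation.trivial k (W.subgroupOf U₁) N))).Equiv
      (coindS W (Representation.trivial k W N)) :=
  coindTransGen U₁ W hW _ (fun _ => rfl)

/-- `CoInd_{U₁}^Γ X_{W} ≅ X_W` -/
def coindTransX (U₁ W : Subgroup Γ) (hW : W ≤ U₁) :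
    (coindS U₁ (X k (W.subgroupOf U₁))).Equiv (X k W) := coindTrans U₁ W hW k

/-- `CoInd_{U₁}^Γ CoInd_W^{U₁} Res σ ≅ CoInd_W^Γ N` if `W` acts trivially on `σ` -/
def coindTransRes (U₁ W : Subgroup Γ) (hW : W ≤ U₁) (σ : Representation k U₁ N)
    (hσ : W.subgroupOf U₁ ≤ σ.ker) :
    (coindS U₁ (coindRes (W.subgroupOf U₁) σ)).Equiv
      (coindS W (Representation.trivial k W N)) :=
  coindTransGen U₁ W hW _ (fun w => hσ w.2)

/-- `CoInd_W Res ρ ≅ CoInd_W (trivial)` if `W` acts trivially on `ρ` -/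
def coindResEquivTrivial (W : Subgroup Γ) (ρ : Representation k Γ N) (hρ : W ≤ ρ.ker) :
    (coindRes W ρ).Equiv (coindS W (Representation.trivial k W N)) :=
  coindEquivOfEq W _ _ (fun w => hρ w.2)

theorem isOpen_map_ker_of_le (C : CohTheory k Γ) {U₁ W : Subgroup Γ} (hW : W ≤ U₁)
    (hWo : C.IsOpen W) (σ : Representation k U₁ N) (hσ : W.subgroupOf U₁ ≤ σ.ker) :
    C.IsOpen (σ.ker.map U₁.subtype) := by
  refine C.isOpen_mono (fun w hw => ?_) hWo
  exact ⟨⟨w, hW hw⟩, hσ (Subgroup.mem_subgroupOf.mpr hw), rfl⟩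

/-- the kernel of `CoInd_{W}^{U₁} Res σ` contains `W` when `W` is normal in `U₁` and acts trivially -/
theorem subgroupOf_le_ker_coindRes (U₁ W : Subgroup Γ) [hn : (W.subgroupOf U₁).Normal]
    (σ : Representation k U₁ N) (hσ : W.subgroupOf U₁ ≤ σ.ker) :
    W.subgroupOf U₁ ≤ (coindRes (W.subgroupOf U₁) σ).ker := by
  intro w hw
  rw [MonoidHom.mem_ker]
  ext f u
  show f.1 (u * w) = f.1 u
  have h1 : u * w * u⁻¹ ∈ W.subgroupOf U₁ := hn.conj_mem w hw u
  have h2 := f.2 ⟨u * w * u⁻¹, h1⟩ u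
  have h3 : σ (u * w * u⁻¹) = 1 := hσ h1
  have h4 : (u * w * u⁻¹) * u = u * w := by group
  simp only [Subgroup.subtype_apply, h4] at h2
  rw [h2]
  show σ (u * w * u⁻¹) (f.1 u) = f.1 u
  rw [h3]
  rfl

theorem subgroupOf_le_ker_X (U₁ W : Subgroup Γ) [hn : (W.subgroupOf U₁).Normal] :
    W.subgroupOf U₁ ≤ (X k (W.subgroupOf U₁)).ker := by
  intro w hw
  rw [MonoidHom.mem_ker]
  ext f u
  show f.1 (u * w) = f.1 u
  have h1 : u * w * u⁻¹ ∈ W.subgroupOf U₁ := hn.conj_mem w hw u
  have h2 := f.2 ⟨u * w * u⁻¹, h1⟩ u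
  have h4 : (u * w * u⁻¹) * u = u * w := by group
  simp only [Subgroup.subtype_apply, h4] at h2
  rw [h2]
  rfl

end

end Fermat.Agent.S55.F
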