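/-
S55 / F-abs / RT-D : p-groups acting on `𝔽_p`-vector spaces, Sylow subgroups of finite quotients.
-/
import Fermat.Agent.S55.F.Basic

set_option autoImplicit false

namespace Fermat.Agent.S55.F

open Representation Module

noncomputable section

variable {p : ℕ} [Fact p.Prime]

/-- a quotient of a `p`-group quotient is a `p`-group -/
theorem isPGroup_quot_of_le {U : Type} [Group U] {A B : Subgroup U} [A.Normal] [B.Normal]
    (h : A ≤ B) (hp : IsPGroup p (U ⧸ A)) : IsPGroup p (U ⧸ B) := by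
  refine hp.of_surjective (QuotientGroup.map A B (MonoidHom.id U) h) ?_
  intro x
  obtain ⟨u, rfl⟩ := QuotientGroup.mk_surjective x
  exact ⟨QuotientGroup.mk u, rfl⟩

/-- a `p`-group quotient acting on a nonzero finite `𝔽_p`-space has a nonzero fixed vector. -/
theorem exists_fixed_ne_zero_of_pGroup {U : Type} [Group U] {N : Type} [AddCommGroup N]
    [Module (ZMod p) N] [Module.Finite (ZMod p) N] (σ : Representation (ZMod p) U N)
    (hp : IsPGroup p (U ⧸ σ.ker)) (hN : 0 < finrank (ZMod p) N) :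
    ∃ v : N, v ≠ 0 ∧ ∀ g : U, σ g v = v := by
  classical
  letI : MulAction (U ⧸ σ.ker) N :=
    MulAction.compHom N
      (QuotientGroup.lift σ.ker σ (fun _ hg => hg) : U ⧸ σ.ker →* Module.End (ZMod p) N)
  have hsmul : ∀ (g : U) (n : N), (QuotientGroup.mk g : U ⧸ σ.ker) • n = σ g n := fun g n => rfl
  have : Finite N := Module.finite_of_finite (ZMod p)
  have hcard : p ∣ Nat.card N := by
    rw [Module.natCard_eq_pow_finrank (K := ZMod p) (V := N), Nat.card_zmod]
    exact dvd_pow_self p hN.ne'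
  have h0 : (0 : N) ∈ MulAction.fixedPoints (U ⧸ σ.ker) N := by
    intro g
    obtain ⟨u, rfl⟩ := QuotientGroup.mk_surjective g
    rw [hsmul, map_zero]
  obtain ⟨v, hv, hv0⟩ := hp.exists_fixed_point_of_prime_dvd_card_of_fixed_point N hcard h0
  exact ⟨v, hv0.symm, fun g => by rw [← hsmul]; exact hv _⟩

/-- unipotent step: if `U` acts on `N ≠ 0` through a `p`-group there is a fixed line. -/
theorem exists_SES_of_pGroup {U : Type} [Group U] {N : Type} [AddCommGroup N] [Module (ZMod p) N]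
    [Module.Finite (ZMod p) N] (σ : Representation (ZMod p) U N) (hp : IsPGroup p (U ⧸ σ.ker))
    (hN : 0 < finrank (ZMod p) N) :
    ∃ (Q : Type) (_ : AddCommGroup Q) (_ : Module (ZMod p) Q) (_ : Module.Finite (ZMod p) Q)
      (τ : Representation (ZMod p) U Q)
      (_ : SES (Representation.trivial (ZMod p) U (ZMod p)) σ τ),
      finrank (ZMod p) Q + 1 = finrank (ZMod p) N ∧ σ.ker ≤ τ.ker ∧ IsPGroup p (U ⧸ τ.ker) := by
  obtain ⟨v, hv0, hv⟩ := exists_fixed_ne_zero_of_pGroup σ hp hN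
  set W : Submodule (ZMod p) N := Submodule.span (ZMod p) {v} with hW
  have hcomap : ∀ g, W ≤ W.comap (σ g) := by
    intro g x hx
    obtain ⟨c, rfl⟩ := Submodule.mem_span_singleton.mp hx
    rw [Submodule.mem_comap, map_smul, hv g]
    exact Submodule.smul_mem _ _ (Submodule.mem_span_singleton_self v)
  set τ : Representation (ZMod p) U (N ⧸ W) := σ.quotient W hcomap with hτ
  have hker : σ.ker ≤ τ.ker := by
    intro g hg
    rw [MonoidHom.mem_ker] at hg ⊢
    ext x
    show Submodule.mapQ W W (σ g) (hcomap g) (Submodule.mkQ W x) = _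
    rw [Submodule.mkQ_apply, Submodule.mapQ_apply, hg]
    rfl
  let S : SES (Representation.trivial (ZMod p) U (ZMod p)) σ τ :=
    { i := ⟨LinearMap.toSpanSingleton (ZMod p) N v, fun g => by
        ext
        simp [hv g]⟩
      π := ⟨Submodule.mkQ W, fun g => by
        ext x
        rfl⟩
      inj := by
        intro a b hab
        have h1 : a • v = b • v := hab
        exact smul_left_injective (ZMod p) hv0 h1
      surj := Submodule.mkQ_surjective W
      exact := by
        intro x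
        constructor
        · intro hx
          have h1 : x ∈ W := (Submodule.Quotient.mk_eq_zero W).mp hx
          obtain ⟨c, hc⟩ := Submodule.mem_span_singleton.mp h1
          exact ⟨c, hc⟩
        · rintro ⟨c, rfl⟩
          exact (Submodule.Quotient.mk_eq_zero W).mpr
            (Submodule.smul_mem _ _ (Submodule.mem_span_singleton_self v)) }
  refine ⟨N ⧸ W, inferInstance, inferInstance, inferInstance, τ, S, ?_, hker,
    isPGroup_quot_of_le hker hp⟩
  have h1 := Submodule.finrank_quotient_add_finrank W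
  rw [hW, finrank_span_singleton hv0] at h1
  exact h1

variable {Γ : Type} [Group Γ]

/-- preimage of a Sylow `p`-subgroup of `Γ/W` -/
theorem exists_sylow_over (W : Subgroup Γ) [W.Normal] [W.FiniteIndex] :
    ∃ U₁ : Subgroup Γ, W ≤ U₁ ∧ ¬ p ∣ U₁.index ∧ IsPGroup p (U₁ ⧸ W.subgroupOf U₁) := by
  have : Finite (Γ ⧸ W) := Subgroup.finite_quotient_of_finiteIndex
  obtain ⟨P⟩ : Nonempty (Sylow p (Γ ⧸ W)) := inferInstance
  refine ⟨(P : Subgroup (Γ ⧸ W)).comap (QuotientGroup.mk' W), ?_, ?_, ?_⟩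
  · intro w hw
    rw [Subgroup.mem_comap]
    have : QuotientGroup.mk' W w = 1 := (QuotientGroup.eq_one_iff w).mpr hw
    rw [this]
    exact one_mem _
  · rw [Subgroup.index_comap_of_surjective _ (QuotientGroup.mk'_surjective W)]
    exact P.not_dvd_index
  · intro g
    obtain ⟨u, rfl⟩ := QuotientGroup.mk_surjective g
    have hu : QuotientGroup.mk' W (u : Γ) ∈ (P : Subgroup (Γ ⧸ W)) := u.2
    obtain ⟨k, hk⟩ := P.2 ⟨_, hu⟩
    refine ⟨k, ?_⟩
    rw [← QuotientGroup.mk_pow, QuotientGroup.eq_one_iff, Subgroup.mem_subgroupOf]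
    have h1 : (QuotientGroup.mk' W (u : Γ)) ^ p ^ k = 1 := congrArg Subtype.val hk
    rw [← map_pow] at h1
    exact (QuotientGroup.eq_one_iff _).mp h1

/-- such a subgroup lies in every normal subgroup `Γ₀ ⊇ W` of index prime to `p` -/
theorem le_of_isPGroup_of_not_dvd_index {Γ₀ W U₁ : Subgroup Γ} [Γ₀.Normal] [W.Normal]
    [Γ₀.FiniteIndex] (hWΓ : W ≤ Γ₀) (hWU : W ≤ U₁) (hp : IsPGroup p (U₁ ⧸ W.subgroupOf U₁))
    (hΓ₀ : ¬ p ∣ Γ₀.index) : U₁ ≤ Γ₀ := by
  intro u hu
  have : Finite (Γ ⧸ Γ₀) := Subgroup.finite_quotient_of_finiteIndex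
  obtain ⟨k, hk⟩ := hp (QuotientGroup.mk ⟨u, hu⟩)
  rw [← QuotientGroup.mk_pow, QuotientGroup.eq_one_iff, Subgroup.mem_subgroupOf] at hk
  have h1 : u ^ p ^ k ∈ Γ₀ := hWΓ hk
  have h2 : (QuotientGroup.mk u : Γ ⧸ Γ₀) ^ p ^ k = 1 := by
    rw [← QuotientGroup.mk_pow]
    exact (QuotientGroup.eq_one_iff _).mpr h1
  have h3 : orderOf (QuotientGroup.mk u : Γ ⧸ Γ₀) ∣ p ^ k := orderOf_dvd_of_pow_eq_one h2
  have h4 : orderOf (QuotientGroup.mk u : Γ ⧸ Γ₀) ∣ Γ₀.index := by
    rw [Subgroup.index_eq_card]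
    exact orderOf_dvd_natCard _
  have hcop : Nat.Coprime (p ^ k) Γ₀.index :=
    Nat.Coprime.pow_left k ((Nat.Prime.coprime_iff_not_dvd Fact.out).mpr hΓ₀)
  have h5 : orderOf (QuotientGroup.mk u : Γ ⧸ Γ₀) = 1 :=
    Nat.eq_one_of_dvd_coprimes hcop h3 h4
  exact (QuotientGroup.eq_one_iff u).mp (orderOf_eq_one_iff.mp h5)

/-- the kernel of a character with values in `(ZMod p)ˣ` has index prime to `p` -/
theorem not_dvd_index_ker (ω : Γ →* (ZMod p)ˣ) : ¬ p ∣ ω.ker.index := by
  intro h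
  rw [Subgroup.index_ker] at h
  have h1 : Nat.card ω.range ∣ Nat.card (ZMod p)ˣ := Subgroup.card_subgroup_dvd_card _
  have h2 : Nat.card (ZMod p)ˣ = p - 1 := by
    rw [Nat.card_eq_fintype_card, ZMod.card_units]
  rw [h2] at h1
  have hp : p.Prime := Fact.out
  have h3 : p ≤ p - 1 := Nat.le_of_dvd (by have := hp.two_le; omega) (h.trans h1)
  have := hp.two_le
  omega

/-- a normal subgroup of index `p` has `p`-group quotient -/
theorem isPGroup_of_index_eq {U : Type} [Group U] (A : Subgroup U) [A.Normal] (h : A.index = p) :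
    IsPGroup p (U ⧸ A) := by
  apply IsPGroup.of_card (n := 1)
  rw [← Subgroup.index_eq_card, h, pow_one]

end

end Fermat.Agent.S55.F
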